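/-
S52 library (helper9): the reduction homomorphism on torsion at a GOOD place, for an arbitrary
valued field.

`K` any field, `A : ValuationSubring K` with residue field `k_A`, `W` a Weierstrass curve over `K`
with coefficients in `A`, `Wb` its coefficientwise reduction (`Red.RedCurve A W Wb`), `Wb.Δ ≠ 0`,
and `n` a unit at `A`.  Then coordinatewise reduction is an injective additive map
  `redTors : W(K)[n] →+ Wb(k_A)`,
compatible with every pair of ring endomorphisms `τ` of `K`, `τb` of `k_A` which preserve the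
curves and are compatible with `A → k_A` (`ResCompat`).  The point maps are the semilinear
`S58lib.Lat.pmap`.  Finally the residue field can be replaced by any field `k` receiving it.

This is `S58lib/Red/Hom.lean` freed from `Wz : WeierstrassCurve ℤ`; it serves for the
specialisation maps of a family over `Qb(t)` at the places `t = t₁` and `t = ∞`.
-/
import Mathlib
import Fermat.Agent.S58lib.Red.Hom
import Fermat.Agent.S58lib.Lat.PointMap

set_option autoImplicit false

namespace Fermat.Agent.S52lib.Spec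

open IsLocalRing WeierstrassCurve WeierstrassCurve.Affine
open Fermat.Agent.S58lib.Red Fermat.Agent.S58lib.Lat

universe u

variable {K : Type u} [Field K] {A : ValuationSubring K}

/-- `τ` preserves `A` and induces `τb` on the residue field. -/
structure ResCompat (A : ValuationSubring K) (τ : K →+* K)
    (τb : ResidueField A →+* ResidueField A) : Prop where
  map_mem : ∀ a : A, τ (a : K) ∈ A
  residue_map : ∀ a : A, τb (residue A a) = residue A ⟨τ (a : K), map_mem a⟩

lemma ResCompat.res {τ : K →+* K} {τb : ResidueField A →+* ResidueField A}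
    (h : ResCompat A τ τb) {x : K} {r : ResidueField A} (hx : Res A x r) :
    Res A (τ x) (τb r) := by
  obtain ⟨a, rfl, rfl⟩ := hx
  exact ⟨⟨τ (a : K), h.map_mem a⟩, rfl, (h.residue_map a).symm⟩

variable [DecidableEq K] [DecidableEq (ResidueField A)]
variable {W : Affine K} {Wb : Affine (ResidueField A)}

lemma nsmul_eq_zero_of_mem {M : Type*} [AddCommGroup M] {n : ℕ}
    (P : Submodule.torsionBy ℤ M n) : n • (P : M) = 0 := by
  have := P.2
  rw [Submodule.mem_torsionBy_iff] at this
  rwa [natCast_zsmul] at this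

omit [DecidableEq (ResidueField A)] in
/-- Good place: every `n`-torsion point has a reduction. -/
theorem exists_redPt (hR : RedCurve A W Wb) (hΔ : Wb.Δ ≠ 0) {n : ℕ}
    (hn : A.valuation (n : K) = 1) (P : Submodule.torsionBy ℤ W.Point n) :
    ∃ Pb : Wb.Point, RedPt A (P : W.Point) Pb :=
  exists_redPt_of_good hR hΔ hn (nsmul_eq_zero_of_mem P)

/-- **The reduction homomorphism on `n`-torsion at a good place.** -/
noncomputable def redTors (hR : RedCurve A W Wb) (hΔ : Wb.Δ ≠ 0) {n : ℕ}
    (hn : A.valuation (n : K) = 1) : Submodule.torsionBy ℤ W.Point n →+ Wb.Point where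
  toFun P := redFun A (P : W.Point)
  map_zero' := redFun_eq (by exact trivial)
  map_add' P Q := by
    obtain ⟨Pb, hPb⟩ := exists_redPt hR hΔ hn P
    obtain ⟨Qb, hQb⟩ := exists_redPt hR hΔ hn Q
    rw [redFun_eq hPb, redFun_eq hQb]
    exact redFun_eq (RedPt.add hR hn hPb hQb (nsmul_eq_zero_of_mem P) (nsmul_eq_zero_of_mem Q))

/-- Specification: `redTors P` is the reduction of `P`. -/
theorem redPt_redTors (hR : RedCurve A W Wb) (hΔ : Wb.Δ ≠ 0) {n : ℕ}
    (hn : A.valuation (n : K) = 1) (P : Submodule.torsionBy ℤ W.Point n) :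
    RedPt A (P : W.Point) (redTors hR hΔ hn P) := by
  obtain ⟨Pb, hPb⟩ := exists_redPt hR hΔ hn P
  have : redTors hR hΔ hn P = Pb := redFun_eq hPb
  rw [this]; exact hPb

/-- Characterisation: a reduction of `P` is `redTors P`. -/
theorem redTors_eq_of_redPt (hR : RedCurve A W Wb) (hΔ : Wb.Δ ≠ 0) {n : ℕ}
    (hn : A.valuation (n : K) = 1) (P : Submodule.torsionBy ℤ W.Point n) {Pb : Wb.Point}
    (h : RedPt A (P : W.Point) Pb) : redTors hR hΔ hn P = Pb :=
  redFun_eq h

/-- The reduction homomorphism is injective. -/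
theorem redTors_injective (hR : RedCurve A W Wb) (hΔ : Wb.Δ ≠ 0) {n : ℕ}
    (hn : A.valuation (n : K) = 1) : Function.Injective (redTors hR hΔ hn) := by
  intro P Q hPQ
  have hP := redPt_redTors hR hΔ hn P
  have hQ := redPt_redTors hR hΔ hn Q
  rw [hPQ] at hP
  exact Subtype.ext (RedPt.inj hR hn hP hQ (nsmul_eq_zero_of_mem P) (nsmul_eq_zero_of_mem Q))

/-- Coordinates of the reduction of a nonzero torsion point. -/
theorem redTors_some (hR : RedCurve A W Wb) (hΔ : Wb.Δ ≠ 0) {n : ℕ}
    (hn : A.valuation (n : K) = 1) (P : Submodule.torsionBy ℤ W.Point n) {x y : K}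
    {h : W.Nonsingular x y} (hP : (P : W.Point) = Point.some x y h) :
    ∃ (xb yb : ResidueField A) (hb : Wb.Nonsingular xb yb),
      redTors hR hΔ hn P = Point.some xb yb hb ∧ Res A x xb ∧ Res A y yb := by
  have h1 := redPt_redTors hR hΔ hn P
  rw [hP] at h1
  rcases hr : redTors hR hΔ hn P with _ | ⟨xb, yb, hb⟩
  · rw [hr] at h1; exact h1.elim
  · rw [hr] at h1; exact ⟨xb, yb, hb, rfl, h1.1, h1.2⟩

/-- Compatible endomorphisms preserve the reduction relation. -/
theorem RedPt.pmap {τ : K →+* K} {τb : ResidueField A →+* ResidueField A}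
    (hτ : ResCompat A τ τb) (hW : W.map τ = W) (hWb : Wb.map τb = Wb) {P : W.Point}
    {Pb : Wb.Point} (h : RedPt A P Pb) : RedPt A (pmap τ hW P) (pmap τb hWb Pb) := by
  rcases P with _ | ⟨x, y, hP⟩ <;> rcases Pb with _ | ⟨xb, yb, hPb⟩
  · have e1 : Fermat.Agent.S58lib.Lat.pmap τ hW (Point.zero : W.Point) = 0 := pmap_zero τ hW
    have e2 : Fermat.Agent.S58lib.Lat.pmap τb hWb (Point.zero : Wb.Point) = 0 := pmap_zero τb hWb
    rw [e1, e2]
    exact trivial
  · exact h.elim
  · exact h.elim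
  · rw [pmap_some, pmap_some]
    exact ⟨hτ.res h.1, hτ.res h.2⟩

/-- The image of a torsion point under a semilinear point map is torsion. -/
lemma pmap_mem_torsionBy {τ : K →+* K} (hW : W.map τ = W) {n : ℕ}
    (P : Submodule.torsionBy ℤ W.Point n) :
    pmap τ hW (P : W.Point) ∈ Submodule.torsionBy ℤ W.Point n := by
  rw [Submodule.mem_torsionBy_iff, natCast_zsmul, ← map_nsmul, nsmul_eq_zero_of_mem P, map_zero]

/-- **Equivariance of the reduction homomorphism.** -/
theorem redTors_pmap (hR : RedCurve A W Wb) (hΔ : Wb.Δ ≠ 0) {n : ℕ}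
    (hn : A.valuation (n : K) = 1) {τ : K →+* K} {τb : ResidueField A →+* ResidueField A}
    (hτ : ResCompat A τ τb) (hW : W.map τ = W) (hWb : Wb.map τb = Wb)
    (P : Submodule.torsionBy ℤ W.Point n) :
    redTors hR hΔ hn ⟨pmap τ hW (P : W.Point), pmap_mem_torsionBy hW P⟩ =
      pmap τb hWb (redTors hR hΔ hn P) :=
  redTors_eq_of_redPt hR hΔ hn _ (RedPt.pmap hτ hW hWb (redPt_redTors hR hΔ hn P))

section transport

variable {k : Type*} [Field k] [DecidableEq k]

/-- **Reduction with values in a field `k` receiving the residue field.** -/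
noncomputable def redTorsTo (hR : RedCurve A W Wb) (hΔ : Wb.Δ ≠ 0) {n : ℕ}
    (hn : A.valuation (n : K) = 1) (e : ResidueField A →+* k) {Wk : Affine k}
    (he : Wb.map e = Wk) : Submodule.torsionBy ℤ W.Point n →+ Wk.Point :=
  (pmap e he).comp (redTors hR hΔ hn)

theorem redTorsTo_injective (hR : RedCurve A W Wb) (hΔ : Wb.Δ ≠ 0) {n : ℕ}
    (hn : A.valuation (n : K) = 1) (e : ResidueField A →+* k) {Wk : Affine k}
    (he : Wb.map e = Wk) : Function.Injective (redTorsTo hR hΔ hn e he) :=
  (pmap_injective e he).comp (redTors_injective hR hΔ hn)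

/-- Coordinates of `redTorsTo`. -/
theorem redTorsTo_some (hR : RedCurve A W Wb) (hΔ : Wb.Δ ≠ 0) {n : ℕ}
    (hn : A.valuation (n : K) = 1) (e : ResidueField A →+* k) {Wk : Affine k}
    (he : Wb.map e = Wk) (P : Submodule.torsionBy ℤ W.Point n) {x y : K}
    {h : W.Nonsingular x y} (hP : (P : W.Point) = Point.some x y h) :
    ∃ (xb yb : ResidueField A) (hk : Wk.Nonsingular (e xb) (e yb)),
      redTorsTo hR hΔ hn e he P = Point.some (e xb) (e yb) hk ∧ Res A x xb ∧ Res A y yb := by
  obtain ⟨xb, yb, hb, h1, hx, hy⟩ := redTors_some hR hΔ hn P hP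
  refine ⟨xb, yb, he ▸ (Wb.map_nonsingular e.injective xb yb).mpr hb, ?_, hx, hy⟩
  show pmap e he (redTors hR hΔ hn P) = _
  rw [h1, pmap_some]

/-- Equivariance of `redTorsTo`: `τ` on `K`, `τb` on the residue field, `τk` on `k`, all
compatible. -/
theorem redTorsTo_pmap (hR : RedCurve A W Wb) (hΔ : Wb.Δ ≠ 0) {n : ℕ}
    (hn : A.valuation (n : K) = 1) (e : ResidueField A →+* k) {Wk : Affine k}
    (he : Wb.map e = Wk) {τ : K →+* K} {τb : ResidueField A →+* ResidueField A} {τk : k →+* k}
    (hτ : ResCompat A τ τb) (hτk : τk.comp e = e.comp τb) (hW : W.map τ = W)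
    (hWb : Wb.map τb = Wb) (hWk : Wk.map τk = Wk) (P : Submodule.torsionBy ℤ W.Point n) :
    redTorsTo hR hΔ hn e he ⟨pmap τ hW (P : W.Point), pmap_mem_torsionBy hW P⟩ =
      pmap τk hWk (redTorsTo hR hΔ hn e he P) := by
  show pmap e he (redTors hR hΔ hn _) = pmap τk hWk (pmap e he (redTors hR hΔ hn P))
  rw [redTors_pmap hR hΔ hn hτ hW hWb, pmap_pmap, pmap_pmap]
  exact pmap_congr hτk.symm _ _ _

/-- `τ` preserves `A` and induces `τk` on `k` through `e`. -/
structure ResCompatTo (A : ValuationSubring K) (e : ResidueField A →+* k) (τ : K →+* K)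
    (τk : k →+* k) : Prop where
  map_mem : ∀ a : A, τ (a : K) ∈ A
  map_res : ∀ a : A, τk (e (residue A a)) = e (residue A ⟨τ (a : K), map_mem a⟩)

omit [DecidableEq K] [DecidableEq (ResidueField A)] [DecidableEq k] in
lemma ResCompatTo.res {e : ResidueField A →+* k} {τ : K →+* K} {τk : k →+* k}
    (h : ResCompatTo A e τ τk) {x : K} {r r' : ResidueField A} (hx : Res A x r)
    (hx' : Res A (τ x) r') : e r' = τk (e r) := by
  obtain ⟨a, rfl, rfl⟩ := hx
  have h1 : Res A (τ (a : K)) (residue A ⟨τ (a : K), h.map_mem a⟩) := ⟨_, rfl, rfl⟩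
  rw [hx'.unique h1, h.map_res a]

/-- **Equivariance of `redTorsTo`**, without an endomorphism of the residue field. -/
theorem redTorsTo_pmap' (hR : RedCurve A W Wb) (hΔ : Wb.Δ ≠ 0) {n : ℕ}
    (hn : A.valuation (n : K) = 1) (e : ResidueField A →+* k) {Wk : Affine k}
    (he : Wb.map e = Wk) {τ : K →+* K} {τk : k →+* k} (hτ : ResCompatTo A e τ τk)
    (hW : W.map τ = W) (hWk : Wk.map τk = Wk) (P : Submodule.torsionBy ℤ W.Point n) :
    redTorsTo hR hΔ hn e he ⟨pmap τ hW (P : W.Point), pmap_mem_torsionBy hW P⟩ =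
      pmap τk hWk (redTorsTo hR hΔ hn e he P) := by
  obtain ⟨Q, hQ⟩ := P
  rcases Q with _ | ⟨x, y, hxy⟩
  · have e0 : (⟨Point.zero, hQ⟩ : Submodule.torsionBy ℤ W.Point n) = 0 := Subtype.ext rfl
    have e1 : (⟨pmap τ hW (Point.zero : W.Point), pmap_mem_torsionBy hW ⟨Point.zero, hQ⟩⟩ :
        Submodule.torsionBy ℤ W.Point n) = 0 := Subtype.ext (pmap_zero τ hW)
    rw [e1, e0, map_zero, map_zero]
  · obtain ⟨xb, yb, hk, h1, hx, hy⟩ :=
      redTorsTo_some hR hΔ hn e he ⟨Point.some x y hxy, hQ⟩ rfl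
    have hP' : ((⟨pmap τ hW (Point.some x y hxy), pmap_mem_torsionBy hW ⟨Point.some x y hxy, hQ⟩⟩ :
        Submodule.torsionBy ℤ W.Point n) : W.Point) =
        Point.some (τ x) (τ y) (hW ▸ (W.map_nonsingular τ.injective x y).mpr hxy) :=
      pmap_some τ hW hxy
    obtain ⟨xb', yb', hk', h1', hx', hy'⟩ := redTorsTo_some hR hΔ hn e he _ hP'
    rw [h1', h1, pmap_some]
    have ex : e xb' = τk (e xb) := hτ.res hx hx'
    have ey : e yb' = τk (e yb) := hτ.res hy hy'
    simp only [ex, ey]

end transport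

end Fermat.Agent.S52lib.Spec
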