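/-
S52 library (helper9): the place `X = a` of the rational function field `k(X)`.

* `regAt a : ValuationSubring (RatFunc k)`: the rational functions regular at `a`;
* `evReg a : regAt a →+* k`: evaluation at `a`, a local homomorphism;
* `resAt a : ResidueField (regAt a) →+* k`: the induced map on the residue field;
* `coeffMap σ : RatFunc k →+* RatFunc k`: the coefficientwise action of `σ : k →+* k`; if
  `σ a = a` it preserves `regAt a` and commutes with evaluation.
-/
import Mathlib

set_option autoImplicit false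

namespace Fermat.Agent.S52lib.Spec

open Polynomial IsLocalRing

variable {k : Type*} [Field k]

/-- The value of a rational function at `a` (a junk value if there is a pole). -/
noncomputable def evFun (a : k) (f : RatFunc k) : k := f.num.eval a / f.denom.eval a

lemma evalReg_ne_zero_of_dvd {a : k} {p q : k[X]} (h : p ∣ q) (hq : q.eval a ≠ 0) :
    p.eval a ≠ 0 := by
  obtain ⟨c, rfl⟩ := h
  intro h0
  exact hq (by rw [eval_mul, h0, zero_mul])

/-- Evaluation of an arbitrary fraction whose denominator does not vanish at `a`. -/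
lemma evFun_div (a : k) {p q : k[X]} (hq : q.eval a ≠ 0) :
    (algebraMap k[X] (RatFunc k) p / algebraMap k[X] (RatFunc k) q).denom.eval a ≠ 0 ∧
      evFun a (algebraMap k[X] (RatFunc k) p / algebraMap k[X] (RatFunc k) q) =
        p.eval a / q.eval a := by
  have hq0 : q ≠ 0 := by
    rintro rfl
    simp at hq
  have hden := evalReg_ne_zero_of_dvd (RatFunc.denom_div_dvd p q) hq
  refine ⟨hden, ?_⟩
  have hrel := (RatFunc.num_mul_eq_mul_denom_iff
    (x := algebraMap k[X] (RatFunc k) p / algebraMap k[X] (RatFunc k) q) hq0).mpr rfl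
  have h1 := congrArg (eval a) hrel
  rw [eval_mul, eval_mul] at h1
  rw [evFun, div_eq_div_iff hden hq]
  exact h1

lemma evFun_algebraMap (a : k) (p : k[X]) : evFun a (algebraMap k[X] (RatFunc k) p) = p.eval a := by
  rw [evFun, RatFunc.num_algebraMap, RatFunc.denom_algebraMap, eval_one, div_one]

/-- The rational functions which are regular at `a`. -/
def regAt (a : k) : ValuationSubring (RatFunc k) where
  carrier := {f | f.denom.eval a ≠ 0}
  mul_mem' := by
    intro f g hf hg
    have h : (f.denom * g.denom).eval a ≠ 0 := by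
      rw [eval_mul]; exact mul_ne_zero hf hg
    exact evalReg_ne_zero_of_dvd (RatFunc.denom_mul_dvd f g) h
  one_mem' := by
    show (1 : RatFunc k).denom.eval a ≠ 0
    rw [RatFunc.denom_one, eval_one]; exact one_ne_zero
  add_mem' := by
    intro f g hf hg
    have h : (f.denom * g.denom).eval a ≠ 0 := by
      rw [eval_mul]; exact mul_ne_zero hf hg
    exact evalReg_ne_zero_of_dvd (RatFunc.denom_add_dvd f g) h
  zero_mem' := by
    show (0 : RatFunc k).denom.eval a ≠ 0
    rw [RatFunc.denom_zero, eval_one]; exact one_ne_zero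
  neg_mem' := by
    intro f hf
    have e : -f = algebraMap k[X] (RatFunc k) (-f.num) / algebraMap k[X] (RatFunc k) f.denom := by
      rw [map_neg, neg_div, RatFunc.num_div_denom]
    show (-f).denom.eval a ≠ 0
    rw [e]
    exact (evFun_div a hf).1
  mem_or_inv_mem' := by
    intro f
    by_cases hf : f.denom.eval a ≠ 0
    · exact Or.inl hf
    · right
      rw [not_not] at hf
      have hf0 : f ≠ 0 := by
        rintro rfl
        rw [RatFunc.denom_zero, eval_one] at hf
        exact one_ne_zero hf
      have hnum : f.num.eval a ≠ 0 := by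
        obtain ⟨u, v, huv⟩ := RatFunc.isCoprime_num_denom f
        intro h0
        have := congrArg (eval a) huv
        rw [eval_add, eval_mul, eval_mul, h0, hf, mul_zero, mul_zero, add_zero, eval_one] at this
        exact zero_ne_one this
      exact evalReg_ne_zero_of_dvd (RatFunc.denom_inv_dvd hf0) hnum

lemma mem_regAt_iff {a : k} {f : RatFunc k} : f ∈ regAt a ↔ f.denom.eval a ≠ 0 := Iff.rfl

lemma div_mem_regAt (a : k) (p : k[X]) {q : k[X]} (hq : q.eval a ≠ 0) :
    algebraMap k[X] (RatFunc k) p / algebraMap k[X] (RatFunc k) q ∈ regAt a :=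
  (evFun_div a hq).1

lemma algebraMap_mem_regAt (a : k) (p : k[X]) : algebraMap k[X] (RatFunc k) p ∈ regAt a := by
  rw [mem_regAt_iff, RatFunc.denom_algebraMap, eval_one]; exact one_ne_zero

lemma evFun_mul {a : k} {f g : RatFunc k} (hf : f ∈ regAt a) (hg : g ∈ regAt a) :
    evFun a (f * g) = evFun a f * evFun a g := by
  have hf' : f.denom.eval a ≠ 0 := hf
  have hg' : g.denom.eval a ≠ 0 := hg
  have h : (f.denom * g.denom).eval a ≠ 0 := by
    rw [eval_mul]; exact mul_ne_zero hf' hg'
  have e : f * g = algebraMap k[X] (RatFunc k) (f.num * g.num) /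
      algebraMap k[X] (RatFunc k) (f.denom * g.denom) := by
    conv_lhs => rw [← RatFunc.num_div_denom f, ← RatFunc.num_div_denom g]
    rw [div_mul_div_comm, ← map_mul, ← map_mul]
  rw [e, (evFun_div a h).2, eval_mul, eval_mul, evFun, evFun, div_mul_div_comm]

lemma evFun_add {a : k} {f g : RatFunc k} (hf : f ∈ regAt a) (hg : g ∈ regAt a) :
    evFun a (f + g) = evFun a f + evFun a g := by
  have hf' : f.denom.eval a ≠ 0 := hf
  have hg' : g.denom.eval a ≠ 0 := hg
  have h : (f.denom * g.denom).eval a ≠ 0 := by
    rw [eval_mul]; exact mul_ne_zero hf' hg'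
  have e : f + g = algebraMap k[X] (RatFunc k) (f.num * g.denom + f.denom * g.num) /
      algebraMap k[X] (RatFunc k) (f.denom * g.denom) := by
    conv_lhs => rw [← RatFunc.num_div_denom f, ← RatFunc.num_div_denom g]
    rw [div_add_div _ _ (RatFunc.algebraMap_ne_zero (RatFunc.denom_ne_zero f))
      (RatFunc.algebraMap_ne_zero (RatFunc.denom_ne_zero g)), map_add, map_mul, map_mul, map_mul]
  rw [e, (evFun_div a h).2, eval_add, eval_mul, eval_mul, eval_mul, evFun, evFun,
    div_add_div _ _ hf' hg']

/-- **Evaluation at `a`.** -/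
noncomputable def evReg (a : k) : regAt a →+* k where
  toFun f := evFun a (f : RatFunc k)
  map_one' := by
    show evFun a (1 : RatFunc k) = 1
    rw [evFun, RatFunc.num_one, RatFunc.denom_one, eval_one, div_one]
  map_mul' f g := evFun_mul f.2 g.2
  map_zero' := by
    show evFun a (0 : RatFunc k) = 0
    rw [evFun, RatFunc.num_zero, eval_zero, zero_div]
  map_add' f g := evFun_add f.2 g.2

lemma evReg_apply (a : k) (f : regAt a) : evReg a f = evFun a (f : RatFunc k) := rfl

lemma evReg_algebraMap (a : k) (p : k[X]) :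
    evReg a ⟨algebraMap k[X] (RatFunc k) p, algebraMap_mem_regAt a p⟩ = p.eval a :=
  evFun_algebraMap a p

instance isLocalHom_evReg (a : k) : IsLocalHom (evReg a) := by
  constructor
  intro f hf
  have hne : evFun a (f : RatFunc k) ≠ 0 := hf.ne_zero
  have hden : (f : RatFunc k).denom.eval a ≠ 0 := f.2
  have hnum : (f : RatFunc k).num.eval a ≠ 0 := by
    intro h0
    apply hne
    rw [evFun, h0, zero_div]
  have hf0 : (f : RatFunc k) ≠ 0 := by
    intro h0
    rw [h0, RatFunc.num_zero, eval_zero] at hnum
    exact hnum rfl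
  have hinv : (f : RatFunc k)⁻¹ ∈ regAt a :=
    evalReg_ne_zero_of_dvd (RatFunc.denom_inv_dvd hf0) hnum
  refine ⟨⟨f, ⟨(f : RatFunc k)⁻¹, hinv⟩, ?_, ?_⟩, rfl⟩
  · apply Subtype.ext
    show (f : RatFunc k) * (f : RatFunc k)⁻¹ = 1
    exact mul_inv_cancel₀ hf0
  · apply Subtype.ext
    show (f : RatFunc k)⁻¹ * (f : RatFunc k) = 1
    exact inv_mul_cancel₀ hf0

/-- The map induced by evaluation on the residue field of the place. -/
noncomputable def resAt (a : k) : ResidueField (regAt a) →+* k :=
  ResidueField.lift (evReg a)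

lemma resAt_residue (a : k) (f : regAt a) : resAt a (residue (regAt a) f) = evReg a f :=
  ResidueField.lift_residue_apply (evReg a) f

section coeff

/-- The coefficientwise action of a field endomorphism on rational functions. -/
noncomputable def coeffMap (σ : k →+* k) : RatFunc k →+* RatFunc k :=
  RatFunc.mapRingHom (Polynomial.mapRingHom σ) (by
    intro p hp
    rw [Submonoid.mem_comap, mem_nonZeroDivisors_iff_ne_zero] at *
    rw [coe_mapRingHom]
    exact (Polynomial.map_ne_zero_iff σ.injective).mpr hp)

lemma coeffMap_div (σ : k →+* k) (p q : k[X]) :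
    coeffMap σ (algebraMap k[X] (RatFunc k) p / algebraMap k[X] (RatFunc k) q) =
      algebraMap k[X] (RatFunc k) (p.map σ) / algebraMap k[X] (RatFunc k) (q.map σ) := by
  rw [coeffMap, RatFunc.coe_mapRingHom_eq_coe_map, RatFunc.map_apply_div]
  rfl

lemma coeffMap_algebraMap (σ : k →+* k) (p : k[X]) :
    coeffMap σ (algebraMap k[X] (RatFunc k) p) = algebraMap k[X] (RatFunc k) (p.map σ) := by
  have := coeffMap_div σ p 1
  rwa [map_one, div_one, Polynomial.map_one, map_one, div_one] at this

lemma eval_map_fixed {σ : k →+* k} {a : k} (hσ : σ a = a) (p : k[X]) :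
    (p.map σ).eval a = σ (p.eval a) := by
  conv_lhs => rw [← hσ]
  rw [eval_map, eval₂_at_apply]

lemma coeffMap_mem {σ : k →+* k} {a : k} (hσ : σ a = a) {f : RatFunc k} (hf : f ∈ regAt a) :
    coeffMap σ f ∈ regAt a := by
  have hf' : f.denom.eval a ≠ 0 := hf
  rw [← RatFunc.num_div_denom f, coeffMap_div]
  apply div_mem_regAt
  rw [eval_map_fixed hσ]
  exact (map_ne_zero σ).mpr hf'

lemma evFun_coeffMap {σ : k →+* k} {a : k} (hσ : σ a = a) {f : RatFunc k} (hf : f ∈ regAt a) :
    evFun a (coeffMap σ f) = σ (evFun a f) := by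
  have hf' : f.denom.eval a ≠ 0 := hf
  have h : (f.denom.map σ).eval a ≠ 0 := by
    rw [eval_map_fixed hσ]
    exact (map_ne_zero σ).mpr hf'
  conv_lhs => rw [← RatFunc.num_div_denom f]
  rw [coeffMap_div, (evFun_div a h).2, eval_map_fixed hσ, eval_map_fixed hσ, evFun, map_div₀]

end coeff

end Fermat.Agent.S52lib.Spec
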