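/-
S52 library (helper9): specialisation of the torsion of a polynomial family of Weierstrass curves.

`WP : WeierstrassCurve k[X]` is a family over the affine line; `genFibre WP` is its generic fibre
over `k(X)`, `fibre WP a` its fibre at `a : k`.  If the fibre at `a` is nonsingular (`Δ ≠ 0`) and
`n ≠ 0` in `k`, evaluation of the coordinates at `a` is an injective additive map
  `specAt : (genFibre WP)(k(X))[n] →+ (fibre WP a)(k)`,
equivariant for the coefficientwise action of every `σ : k →+* k` with `σ a = a` which fixes the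
family.
-/
import Mathlib
import Fermat.Agent.S52lib.Spec.RedGen
import Fermat.Agent.S52lib.Spec.RegAt

set_option autoImplicit false
set_option linter.unusedSectionVars false

namespace Fermat.Agent.S52lib.Spec

open Polynomial IsLocalRing WeierstrassCurve WeierstrassCurve.Affine
open Fermat.Agent.S58lib.Red Fermat.Agent.S58lib.Lat

variable {k : Type*} [Field k]

/-- The generic fibre of a polynomial family. -/
noncomputable def genFibre (WP : WeierstrassCurve k[X]) : WeierstrassCurve (RatFunc k) :=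
  WP.map (algebraMap k[X] (RatFunc k))

/-- The fibre at `a`. -/
noncomputable def fibre (WP : WeierstrassCurve k[X]) (a : k) : WeierstrassCurve k :=
  WP.map (evalRingHom a)

/-- Polynomials as functions regular at `a`. -/
noncomputable def polyToReg (a : k) : k[X] →+* regAt a :=
  (algebraMap k[X] (RatFunc k)).codRestrict (regAt a).toSubring (algebraMap_mem_regAt a)

lemma subtype_comp_polyToReg (a : k) :
    (regAt a).subtype.comp (polyToReg a) = algebraMap k[X] (RatFunc k) := rfl

lemma evReg_comp_polyToReg (a : k) : (evReg a).comp (polyToReg a) = evalRingHom a := by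
  ext p
  · exact evReg_algebraMap a (C p)
  · exact evReg_algebraMap a X

lemma resAt_comp_residue (a : k) : (resAt a).comp (residue (regAt a)) = evReg a := by
  ext f
  exact resAt_residue a f

/-- The model of the family over the valuation ring of the place `X = a`. -/
noncomputable def modelAt (WP : WeierstrassCurve k[X]) (a : k) : WeierstrassCurve (regAt a) :=
  WP.map (polyToReg a)

/-- The reduction of the family at the place `X = a`, over the residue field of the place. -/
noncomputable def redAt (WP : WeierstrassCurve k[X]) (a : k) :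
    WeierstrassCurve (ResidueField (regAt a)) :=
  (modelAt WP a).map (residue (regAt a))

lemma modelAt_map_subtype (WP : WeierstrassCurve k[X]) (a : k) :
    (modelAt WP a).map (regAt a).subtype = genFibre WP := by
  rw [modelAt, WeierstrassCurve.map_map, subtype_comp_polyToReg, genFibre]

lemma redAt_map_resAt (WP : WeierstrassCurve k[X]) (a : k) :
    (redAt WP a).map (resAt a) = fibre WP a := by
  rw [redAt, modelAt, WeierstrassCurve.map_map, WeierstrassCurve.map_map, resAt_comp_residue,
    evReg_comp_polyToReg, fibre]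

lemma redCurve_at (WP : WeierstrassCurve k[X]) (a : k) :
    RedCurve (regAt a) (genFibre WP) (redAt WP a) := by
  rw [← modelAt_map_subtype WP a]
  refine ⟨⟨(modelAt WP a).a₁, rfl, rfl⟩, ⟨(modelAt WP a).a₂, rfl, rfl⟩,
    ⟨(modelAt WP a).a₃, rfl, rfl⟩, ⟨(modelAt WP a).a₄, rfl, rfl⟩, ⟨(modelAt WP a).a₆, rfl, rfl⟩⟩

lemma redAt_Δ_ne_zero {WP : WeierstrassCurve k[X]} {a : k} (hΔ : (fibre WP a).Δ ≠ 0) :
    (redAt WP a).Δ ≠ 0 := by
  intro h0
  apply hΔ
  rw [← redAt_map_resAt, WeierstrassCurve.map_Δ, h0, map_zero]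

lemma valuation_regAt_natCast (a : k) {n : ℕ} (hn : (n : k) ≠ 0) :
    (regAt a).valuation ((n : ℕ) : RatFunc k) = 1 := by
  have hmem : ((n : ℕ) : RatFunc k) ∈ regAt a := by
    have : ((n : ℕ) : RatFunc k) = algebraMap k[X] (RatFunc k) (n : k[X]) := by simp
    rw [this]; exact algebraMap_mem_regAt a _
  have hu : IsUnit (⟨((n : ℕ) : RatFunc k), hmem⟩ : regAt a) := by
    apply (isUnit_map_iff (evReg a) _).mp
    have : evReg a ⟨((n : ℕ) : RatFunc k), hmem⟩ = (n : k) := by
      have e : (⟨((n : ℕ) : RatFunc k), hmem⟩ : regAt a) = ((n : ℕ) : regAt a) :=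
        Subtype.ext (by simp)
      rw [e, map_natCast]
    rw [this]
    exact isUnit_iff_ne_zero.mpr hn
  exact ((regAt a).valuation_eq_one_iff ⟨_, hmem⟩).mp hu

variable [DecidableEq k] [DecidableEq (RatFunc k)]

/-- Decidable equality on the residue field of the place (classical). -/
noncomputable local instance decEqResidueFieldRegAt (a : k) :
    DecidableEq (ResidueField (regAt a)) := Classical.decEq _

/-- **Specialisation of `n`-torsion at a good fibre.** -/
noncomputable def specAt (WP : WeierstrassCurve k[X]) (a : k) (hΔ : (fibre WP a).Δ ≠ 0) {n : ℕ}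
    (hn : (n : k) ≠ 0) :
    Submodule.torsionBy ℤ (genFibre WP).toAffine.Point n →+ (fibre WP a).toAffine.Point :=
  redTorsTo (redCurve_at WP a) (redAt_Δ_ne_zero hΔ) (valuation_regAt_natCast a hn) (resAt a)
    (redAt_map_resAt WP a)

theorem specAt_injective (WP : WeierstrassCurve k[X]) (a : k) (hΔ : (fibre WP a).Δ ≠ 0) {n : ℕ}
    (hn : (n : k) ≠ 0) : Function.Injective (specAt WP a hΔ hn) :=
  redTorsTo_injective _ _ _ _ _

/-- Coordinates of the specialisation: regular at `a`, and evaluated there. -/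
theorem specAt_some (WP : WeierstrassCurve k[X]) (a : k) (hΔ : (fibre WP a).Δ ≠ 0) {n : ℕ}
    (hn : (n : k) ≠ 0) (P : Submodule.torsionBy ℤ (genFibre WP).toAffine.Point n)
    {x y : RatFunc k} {h : (genFibre WP).toAffine.Nonsingular x y}
    (hP : (P : (genFibre WP).toAffine.Point) = Point.some x y h) :
    x ∈ regAt a ∧ y ∈ regAt a ∧
      ∃ hk : (fibre WP a).toAffine.Nonsingular (evFun a x) (evFun a y),
        specAt WP a hΔ hn P = Point.some (evFun a x) (evFun a y) hk := by
  obtain ⟨xb, yb, hk, h1, hx, hy⟩ := redTorsTo_some (redCurve_at WP a) (redAt_Δ_ne_zero hΔ)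
    (valuation_regAt_natCast a hn) (resAt a) (redAt_map_resAt WP a) P hP
  obtain ⟨fx, rfl, rfl⟩ := hx
  obtain ⟨fy, rfl, rfl⟩ := hy
  refine ⟨fx.2, fy.2, ?_⟩
  have ex : resAt a (residue (regAt a) fx) = evFun a (fx : RatFunc k) := resAt_residue a fx
  have ey : resAt a (residue (regAt a) fy) = evFun a (fy : RatFunc k) := resAt_residue a fy
  rw [ex, ey] at hk
  refine ⟨hk, ?_⟩
  show redTorsTo _ _ _ _ _ P = _
  rw [h1]
  simp only [ex, ey]

/-- The coefficientwise action fixes the generic fibre of a family with `σ`-fixed coefficients. -/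
lemma genFibre_map_coeffMap {WP : WeierstrassCurve k[X]} {σ : k →+* k}
    (hWP : WP.map (Polynomial.mapRingHom σ) = WP) : (genFibre WP).map (coeffMap σ) = genFibre WP := by
  have hcomp : (coeffMap σ).comp (algebraMap k[X] (RatFunc k)) =
      (algebraMap k[X] (RatFunc k)).comp (Polynomial.mapRingHom σ) := by
    refine RingHom.ext fun p => ?_
    rw [RingHom.comp_apply, RingHom.comp_apply, coeffMap_algebraMap, coe_mapRingHom]
  conv_rhs => rw [← hWP]
  rw [genFibre, WeierstrassCurve.map_map, hcomp, ← WeierstrassCurve.map_map]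
  rfl

lemma fibre_map {WP : WeierstrassCurve k[X]} {σ : k →+* k} {a : k} (hσ : σ a = a)
    (hWP : WP.map (Polynomial.mapRingHom σ) = WP) : (fibre WP a).map σ = fibre WP a := by
  have hcomp : σ.comp (evalRingHom a) = (evalRingHom a).comp (Polynomial.mapRingHom σ) := by
    refine RingHom.ext fun p => ?_
    rw [RingHom.comp_apply, RingHom.comp_apply, coe_evalRingHom, coe_mapRingHom,
      eval_map_fixed hσ]
  conv_rhs => rw [← hWP]
  rw [fibre, WeierstrassCurve.map_map, hcomp, ← WeierstrassCurve.map_map]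
  rfl

lemma resCompatTo_coeffMap {σ : k →+* k} {a : k} (hσ : σ a = a) :
    ResCompatTo (regAt a) (resAt a) (coeffMap σ) σ where
  map_mem f := coeffMap_mem hσ f.2
  map_res f := by
    rw [resAt_residue, resAt_residue, evReg_apply, evReg_apply]
    exact (evFun_coeffMap hσ f.2).symm

/-- **Equivariance of the specialisation** for the coefficientwise action. -/
theorem specAt_pmap (WP : WeierstrassCurve k[X]) (a : k) (hΔ : (fibre WP a).Δ ≠ 0) {n : ℕ}
    (hn : (n : k) ≠ 0) {σ : k →+* k} (hσ : σ a = a)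
    (hWP : WP.map (Polynomial.mapRingHom σ) = WP)
    (P : Submodule.torsionBy ℤ (genFibre WP).toAffine.Point n) :
    specAt WP a hΔ hn ⟨pmap (coeffMap σ) (genFibre_map_coeffMap hWP) (P : (genFibre WP).toAffine.Point),
        pmap_mem_torsionBy (genFibre_map_coeffMap hWP) P⟩ =
      pmap σ (fibre_map hσ hWP) (specAt WP a hΔ hn P) :=
  redTorsTo_pmap' _ _ _ _ _ (resCompatTo_coeffMap hσ) _ _ P

/-! ### The same with a prescribed model of the fibre -/

/-- `specAt` with values in a curve `Wk` which is (propositionally) the fibre at `a`. -/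
noncomputable def specTo (WP : WeierstrassCurve k[X]) (a : k) {Wk : WeierstrassCurve k}
    (hW : fibre WP a = Wk) (hΔ : Wk.Δ ≠ 0) {n : ℕ} (hn : (n : k) ≠ 0) :
    Submodule.torsionBy ℤ (genFibre WP).toAffine.Point n →+ Wk.toAffine.Point :=
  (pmap (RingHom.id k) (show (fibre WP a).map (RingHom.id k) = Wk by
    rw [WeierstrassCurve.map_id]; exact hW)).comp (specAt WP a (by rw [hW]; exact hΔ) hn)

theorem specTo_eq (WP : WeierstrassCurve k[X]) (a : k) (hΔ : (fibre WP a).Δ ≠ 0) {n : ℕ}
    (hn : (n : k) ≠ 0) (P : Submodule.torsionBy ℤ (genFibre WP).toAffine.Point n) :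
    specTo WP a rfl hΔ hn P = specAt WP a hΔ hn P := by
  have h := pmap_id (W := (fibre WP a).toAffine) (WeierstrassCurve.map_id (fibre WP a))
    (specAt WP a hΔ hn P)
  exact h

theorem specTo_injective (WP : WeierstrassCurve k[X]) (a : k) {Wk : WeierstrassCurve k}
    (hW : fibre WP a = Wk) (hΔ : Wk.Δ ≠ 0) {n : ℕ} (hn : (n : k) ≠ 0) :
    Function.Injective (specTo WP a hW hΔ hn) := by
  subst hW
  intro P Q hPQ
  rw [specTo_eq, specTo_eq] at hPQ
  exact specAt_injective WP a hΔ hn hPQ

theorem specTo_some (WP : WeierstrassCurve k[X]) (a : k) {Wk : WeierstrassCurve k}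
    (hW : fibre WP a = Wk) (hΔ : Wk.Δ ≠ 0) {n : ℕ} (hn : (n : k) ≠ 0)
    (P : Submodule.torsionBy ℤ (genFibre WP).toAffine.Point n)
    {x y : RatFunc k} {h : (genFibre WP).toAffine.Nonsingular x y}
    (hP : (P : (genFibre WP).toAffine.Point) = Point.some x y h) :
    x ∈ regAt a ∧ y ∈ regAt a ∧
      ∃ hk : Wk.toAffine.Nonsingular (evFun a x) (evFun a y),
        specTo WP a hW hΔ hn P = Point.some (evFun a x) (evFun a y) hk := by
  subst hW
  obtain ⟨hx, hy, hk, e⟩ := specAt_some WP a hΔ hn P hP
  exact ⟨hx, hy, hk, by rw [specTo_eq, e]⟩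

theorem specTo_pmap (WP : WeierstrassCurve k[X]) (a : k) {Wk : WeierstrassCurve k}
    (hW : fibre WP a = Wk) (hΔ : Wk.Δ ≠ 0) {n : ℕ} (hn : (n : k) ≠ 0) {σ : k →+* k} (hσ : σ a = a)
    (hWP : WP.map (Polynomial.mapRingHom σ) = WP) (hWk : Wk.map σ = Wk)
    (P : Submodule.torsionBy ℤ (genFibre WP).toAffine.Point n) :
    specTo WP a hW hΔ hn ⟨pmap (coeffMap σ) (genFibre_map_coeffMap hWP)
        (P : (genFibre WP).toAffine.Point), pmap_mem_torsionBy (genFibre_map_coeffMap hWP) P⟩ =
      pmap σ hWk (specTo WP a hW hΔ hn P) := by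
  subst hW
  rw [specTo_eq, specTo_eq]
  exact specAt_pmap WP a hΔ hn hσ hWP P

/-- **Polynomial points specialise by evaluation.** -/
theorem specTo_poly (WP : WeierstrassCurve k[X]) (a : k) {Wk : WeierstrassCurve k}
    (hW : fibre WP a = Wk) (hΔ : Wk.Δ ≠ 0) {n : ℕ} (hn : (n : k) ≠ 0)
    (P : Submodule.torsionBy ℤ (genFibre WP).toAffine.Point n) {x y : k[X]}
    {h : (genFibre WP).toAffine.Nonsingular (algebraMap k[X] (RatFunc k) x)
      (algebraMap k[X] (RatFunc k) y)}
    (hP : (P : (genFibre WP).toAffine.Point) = Point.some _ _ h) :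
    ∃ hk : Wk.toAffine.Nonsingular (x.eval a) (y.eval a),
      specTo WP a hW hΔ hn P = Point.some (x.eval a) (y.eval a) hk := by
  obtain ⟨-, -, hk, e⟩ := specTo_some WP a hW hΔ hn P hP
  have ex : evFun a (algebraMap k[X] (RatFunc k) x) = x.eval a := evFun_algebraMap a x
  have ey : evFun a (algebraMap k[X] (RatFunc k) y) = y.eval a := evFun_algebraMap a y
  have hk' : Wk.toAffine.Nonsingular (x.eval a) (y.eval a) := by rw [← ex, ← ey]; exact hk
  refine ⟨hk', ?_⟩
  rw [e]
  simp only [Point.some.injEq]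
  exact ⟨ex, ey⟩

/-- The origin specialises to the origin, and only the origin does. -/
theorem specTo_eq_zero_iff (WP : WeierstrassCurve k[X]) (a : k) {Wk : WeierstrassCurve k}
    (hW : fibre WP a = Wk) (hΔ : Wk.Δ ≠ 0) {n : ℕ} (hn : (n : k) ≠ 0)
    (P : Submodule.torsionBy ℤ (genFibre WP).toAffine.Point n) :
    specTo WP a hW hΔ hn P = 0 ↔ P = 0 :=
  map_eq_zero_iff _ (specTo_injective WP a hW hΔ hn)

end Fermat.Agent.S52lib.Spec
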