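/-
S52 library (helper9): specialisation of torsion for a family over `ℚ[X]` at rational parameters,
with values in the `ℚ̄`-points of the fibres and the Prelude's `G_ℚ`-action, and the gluing theorem
`exists_theta_of_surj` / `exists_theta_of_sections`:

  if `WQ : WeierstrassCurve ℚ[X]` has good fibres `Ea`, `Eb` at `a b : ℚ`, and every `n`-torsion point
  of `Ea(ℚ̄)` is the specialisation of an `n`-torsion point of the generic fibre over `ℚ̄(X)`, then
  there is `θ : Ea(ℚ̄) → Eb(ℚ̄)` which on the `n`-torsion is additive, injective, `n`-torsion valued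
  and `G_ℚ`-equivariant (the four hypotheses of `Cong.apOfModel_sub_dvd_of_pointMap`).
-/
import Mathlib
import Fermat.Prelude.Def_FLTPrelim_GaloisRep
import Fermat.Agent.S52lib.Spec.PolyFamily

set_option autoImplicit false
set_option linter.unusedSectionVars false

namespace Fermat.Agent.S52lib.Spec

open Polynomial WeierstrassCurve WeierstrassCurve.Affine WeierstrassCurve.Affine.Point
open Fermat.Agent.S58lib.Lat

local notation "Qb" => AlgebraicClosure ℚ
local notation "GQ" => (AlgebraicClosure ℚ ≃ₐ[ℚ] AlgebraicClosure ℚ)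

/-- a Galois element as a ring endomorphism of `ℚ̄` -/
noncomputable def galHom (σ : GQ) : Qb →+* Qb := (σ : Qb →+* Qb)

lemma galHom_apply (σ : GQ) (x : Qb) : galHom σ x = σ x := rfl

lemma galHom_algebraMap (σ : GQ) (a : ℚ) : galHom σ (algebraMap ℚ Qb a) = algebraMap ℚ Qb a :=
  σ.commutes a

lemma galHom_comp_algebraMap (σ : GQ) : (galHom σ).comp (algebraMap ℚ Qb) = algebraMap ℚ Qb :=
  RingHom.ext fun a => galHom_algebraMap σ a

/-- curves defined over `ℚ` are fixed by the Galois action on coefficients. -/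
lemma baseChange_map_galHom (W : WeierstrassCurve ℚ) (σ : GQ) :
    (W.baseChange Qb).map (galHom σ) = W.baseChange Qb := by
  rw [WeierstrassCurve.baseChange, WeierstrassCurve.map_map, galHom_comp_algebraMap]

/-- `pmap` along a Galois element is the Prelude's Galois action on points. -/
lemma pmap_galHom_eq_smul (W : WeierstrassCurve ℚ) (σ : GQ)
    (hW : (W.baseChange Qb).map (galHom σ) = W.baseChange Qb) (P : (W.toAffine⁄Qb).Point) :
    pmap (galHom σ) hW P = σ • P := by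
  rcases P with _ | ⟨x, y, h⟩
  · have h0 : (Point.zero : (W.toAffine⁄Qb).Point) = 0 := rfl
    rw [h0, _root_.map_zero, algEquiv_smul_def, Point.map_zero]
  · rw [pmap_some, algEquiv_smul_def, Point.map_some]
    rfl

/-- the family over `ℚ̄[X]` obtained from a family over `ℚ[X]` -/
noncomputable def famQb (WQ : WeierstrassCurve ℚ[X]) : WeierstrassCurve Qb[X] :=
  WQ.map (mapRingHom (algebraMap ℚ Qb))

lemma famQb_map_galHom (WQ : WeierstrassCurve ℚ[X]) (σ : GQ) :
    (famQb WQ).map (mapRingHom (galHom σ)) = famQb WQ := by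
  have hcomp : (mapRingHom (galHom σ)).comp (mapRingHom (algebraMap ℚ Qb)) =
      mapRingHom (algebraMap ℚ Qb) := by
    refine RingHom.ext fun p => ?_
    simp only [RingHom.comp_apply, coe_mapRingHom]
    rw [Polynomial.map_map, galHom_comp_algebraMap]
  rw [famQb, WeierstrassCurve.map_map, hcomp]

lemma fibre_famQb (WQ : WeierstrassCurve ℚ[X]) (a : ℚ) :
    fibre (famQb WQ) (algebraMap ℚ Qb a) = (WQ.map (evalRingHom a)).baseChange Qb := by
  have hcomp : (evalRingHom (algebraMap ℚ Qb a)).comp (mapRingHom (algebraMap ℚ Qb)) =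
      (algebraMap ℚ Qb).comp (evalRingHom a) := by
    refine RingHom.ext fun p => ?_
    simp only [RingHom.comp_apply, coe_evalRingHom, coe_mapRingHom]
    rw [eval_map, eval₂_at_apply]
  rw [fibre, famQb, WeierstrassCurve.map_map, hcomp, WeierstrassCurve.baseChange,
    WeierstrassCurve.map_map]

variable [DecidableEq (RatFunc Qb)]

lemma baseChange_Δ_ne_zero {E : WeierstrassCurve ℚ} (hΔ : E.Δ ≠ 0) : (E.baseChange Qb).Δ ≠ 0 := by
  rw [WeierstrassCurve.baseChange, WeierstrassCurve.map_Δ]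
  exact (map_ne_zero_iff _ (algebraMap ℚ Qb).injective).mpr hΔ

lemma natCast_Qb_ne_zero {n : ℕ} (hn : n ≠ 0) : ((n : ℕ) : Qb) ≠ 0 := Nat.cast_ne_zero.mpr hn

/-- the `n`-torsion of the generic fibre of (the base change to `ℚ̄[X]` of) a family over `ℚ[X]` -/
abbrev GenTors (WQ : WeierstrassCurve ℚ[X]) (n : ℕ) : Type :=
  Submodule.torsionBy ℤ (genFibre (famQb WQ)).toAffine.Point n

lemma nsmul_genTors (WQ : WeierstrassCurve ℚ[X]) (n : ℕ) (P : GenTors WQ n) : n • P = 0 := by
  apply Subtype.ext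
  have h := P.2
  rw [Submodule.mem_torsionBy_iff] at h
  have h2 : ((n • P : GenTors WQ n) : (genFibre (famQb WQ)).toAffine.Point) = n • P.1 :=
    AddSubmonoidClass.coe_nsmul _ _
  rw [h2, Submodule.coe_zero, ← h, natCast_zsmul]

/-- **Specialisation at a rational parameter `a`**, with values in the `ℚ̄`-points of the fibre `Ea`
(a curve over `ℚ`). -/
noncomputable def specQ (WQ : WeierstrassCurve ℚ[X]) (a : ℚ) {Ea : WeierstrassCurve ℚ}
    (ha : WQ.map (evalRingHom a) = Ea) (hΔa : Ea.Δ ≠ 0) {n : ℕ} (hn : n ≠ 0) :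
    GenTors WQ n →+ (Ea.toAffine⁄Qb).Point :=
  specTo (famQb WQ) (algebraMap ℚ Qb a)
    (show fibre (famQb WQ) (algebraMap ℚ Qb a) = Ea.baseChange Qb by rw [fibre_famQb, ha])
    (baseChange_Δ_ne_zero hΔa) (natCast_Qb_ne_zero hn)

theorem specQ_injective (WQ : WeierstrassCurve ℚ[X]) (a : ℚ) {Ea : WeierstrassCurve ℚ}
    (ha : WQ.map (evalRingHom a) = Ea) (hΔa : Ea.Δ ≠ 0) {n : ℕ} (hn : n ≠ 0) :
    Function.Injective (specQ WQ a ha hΔa hn) :=
  specTo_injective _ _ _ _ _

/-- polynomial points specialise by evaluation -/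
theorem specQ_poly (WQ : WeierstrassCurve ℚ[X]) (a : ℚ) {Ea : WeierstrassCurve ℚ}
    (ha : WQ.map (evalRingHom a) = Ea) (hΔa : Ea.Δ ≠ 0) {n : ℕ} (hn : n ≠ 0)
    (P : GenTors WQ n) {x y : Qb[X]}
    {h : (genFibre (famQb WQ)).toAffine.Nonsingular (algebraMap Qb[X] (RatFunc Qb) x)
      (algebraMap Qb[X] (RatFunc Qb) y)}
    (hP : (P : (genFibre (famQb WQ)).toAffine.Point) = Point.some _ _ h) :
    ∃ hk : (Ea.toAffine⁄Qb).Nonsingular (x.eval (algebraMap ℚ Qb a)) (y.eval (algebraMap ℚ Qb a)),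
      specQ WQ a ha hΔa hn P = Point.some _ _ hk :=
  specTo_poly _ _ _ _ _ P hP

/-- the coefficientwise Galois action on the torsion of the generic fibre -/
noncomputable def galTors (WQ : WeierstrassCurve ℚ[X]) (n : ℕ) (σ : GQ) (P : GenTors WQ n) :
    GenTors WQ n :=
  ⟨pmap (coeffMap (galHom σ)) (genFibre_map_coeffMap (famQb_map_galHom WQ σ))
      (P : (genFibre (famQb WQ)).toAffine.Point),
    pmap_mem_torsionBy (genFibre_map_coeffMap (famQb_map_galHom WQ σ)) P⟩

/-- **`specQ` is `G_ℚ`-equivariant.** -/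
theorem specQ_galTors (WQ : WeierstrassCurve ℚ[X]) (a : ℚ) {Ea : WeierstrassCurve ℚ}
    (ha : WQ.map (evalRingHom a) = Ea) (hΔa : Ea.Δ ≠ 0) {n : ℕ} (hn : n ≠ 0) (σ : GQ)
    (P : GenTors WQ n) :
    specQ WQ a ha hΔa hn (galTors WQ n σ P) = σ • specQ WQ a ha hΔa hn P := by
  rw [← pmap_galHom_eq_smul Ea σ (baseChange_map_galHom Ea σ)]
  exact specTo_pmap (famQb WQ) (algebraMap ℚ Qb a) _ _ _ (galHom_algebraMap σ a)
    (famQb_map_galHom WQ σ) (baseChange_map_galHom Ea σ) P

/-- **The gluing theorem.** If the specialisation at `a` is onto the `n`-torsion of `Ea`, there is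
a map `θ : Ea(ℚ̄) → Eb(ℚ̄)` which on the `n`-torsion is additive, injective, `n`-torsion valued and
`G_ℚ`-equivariant, and which is `specQ b ∘ (specQ a)⁻¹` there. -/
theorem exists_theta_of_surj (WQ : WeierstrassCurve ℚ[X]) (a b : ℚ) {Ea Eb : WeierstrassCurve ℚ}
    (ha : WQ.map (evalRingHom a) = Ea) (hb : WQ.map (evalRingHom b) = Eb)
    (hΔa : Ea.Δ ≠ 0) (hΔb : Eb.Δ ≠ 0) {n : ℕ} (hn : n ≠ 0)
    (hsurj : ∀ R : (Ea.toAffine⁄Qb).Point, n • R = 0 →
      ∃ P : GenTors WQ n, specQ WQ a ha hΔa hn P = R) :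
    ∃ θ : (Ea.toAffine⁄Qb).Point → (Eb.toAffine⁄Qb).Point,
      (∀ P : GenTors WQ n, θ (specQ WQ a ha hΔa hn P) = specQ WQ b hb hΔb hn P) ∧
      (∀ x y, n • x = 0 → n • y = 0 → θ (x + y) = θ x + θ y) ∧
      (∀ x, n • x = 0 → n • θ x = 0) ∧ (∀ x, n • x = 0 → θ x = 0 → x = 0) ∧
      (∀ (σ : GQ) x, n • x = 0 → θ (σ • x) = σ • θ x) := by
  classical
  set spa := specQ WQ a ha hΔa hn with hspa
  set spb := specQ WQ b hb hΔb hn with hspb
  have hia : Function.Injective spa := specQ_injective WQ a ha hΔa hn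
  have hib : Function.Injective spb := specQ_injective WQ b hb hΔb hn
  let θ : (Ea.toAffine⁄Qb).Point → (Eb.toAffine⁄Qb).Point :=
    fun R => if h : ∃ P : GenTors WQ n, spa P = R then spb h.choose else 0
  have hθ : ∀ P : GenTors WQ n, θ (spa P) = spb P := by
    intro P
    have h : ∃ P' : GenTors WQ n, spa P' = spa P := ⟨P, rfl⟩
    have : θ (spa P) = spb h.choose := dif_pos h
    rw [this, hia h.choose_spec]
  refine ⟨θ, hθ, ?_, ?_, ?_, ?_⟩
  · intro x y hx hy
    obtain ⟨P, rfl⟩ := hsurj x hx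
    obtain ⟨Q, rfl⟩ := hsurj y hy
    rw [← _root_.map_add, hθ, hθ, hθ, _root_.map_add]
  · intro x hx
    obtain ⟨P, rfl⟩ := hsurj x hx
    rw [hθ, ← map_nsmul, nsmul_genTors, _root_.map_zero]
  · intro x hx h0
    obtain ⟨P, rfl⟩ := hsurj x hx
    rw [hθ] at h0
    have : P = 0 := hib (by rw [h0, _root_.map_zero])
    rw [this, _root_.map_zero]
  · intro σ x hx
    obtain ⟨P, rfl⟩ := hsurj x hx
    rw [hθ, hspa, ← specQ_galTors, ← hspa, hθ, hspb, specQ_galTors]

/-- **The gluing theorem, with polynomial sections.** It suffices that every nonzero `n`-torsion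
point of `Ea` is the value at `a` of an `n`-torsion point of the generic fibre with polynomial
coordinates. -/
theorem exists_theta_of_sections (WQ : WeierstrassCurve ℚ[X]) (a b : ℚ)
    {Ea Eb : WeierstrassCurve ℚ}
    (ha : WQ.map (evalRingHom a) = Ea) (hb : WQ.map (evalRingHom b) = Eb)
    (hΔa : Ea.Δ ≠ 0) (hΔb : Eb.Δ ≠ 0) {n : ℕ} (hn : n ≠ 0)
    (hsec : ∀ R : (Ea.toAffine⁄Qb).Point, R ≠ 0 → n • R = 0 →
      ∃ (x y : Qb[X]) (hns : (genFibre (famQb WQ)).toAffine.Nonsingular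
          (algebraMap Qb[X] (RatFunc Qb) x) (algebraMap Qb[X] (RatFunc Qb) y))
        (hk : (Ea.toAffine⁄Qb).Nonsingular (x.eval (algebraMap ℚ Qb a))
          (y.eval (algebraMap ℚ Qb a))),
        n • (Point.some _ _ hns : (genFibre (famQb WQ)).toAffine.Point) = 0 ∧
          R = Point.some _ _ hk) :
    ∃ θ : (Ea.toAffine⁄Qb).Point → (Eb.toAffine⁄Qb).Point,
      (∀ P : GenTors WQ n, θ (specQ WQ a ha hΔa hn P) = specQ WQ b hb hΔb hn P) ∧
      (∀ x y, n • x = 0 → n • y = 0 → θ (x + y) = θ x + θ y) ∧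
      (∀ x, n • x = 0 → n • θ x = 0) ∧ (∀ x, n • x = 0 → θ x = 0 → x = 0) ∧
      (∀ (σ : GQ) x, n • x = 0 → θ (σ • x) = σ • θ x) := by
  refine exists_theta_of_surj WQ a b ha hb hΔa hΔb hn ?_
  intro R hR
  by_cases h0 : R = 0
  · exact ⟨0, by rw [_root_.map_zero, h0]⟩
  · obtain ⟨x, y, hns, hk, htors, rfl⟩ := hsec R h0 hR
    have hmem : (Point.some _ _ hns : (genFibre (famQb WQ)).toAffine.Point) ∈
        Submodule.torsionBy ℤ (genFibre (famQb WQ)).toAffine.Point n := by
      rw [Submodule.mem_torsionBy_iff, natCast_zsmul]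
      exact htors
    obtain ⟨hk', e⟩ := specQ_poly WQ a ha hΔa hn ⟨_, hmem⟩ rfl
    exact ⟨⟨_, hmem⟩, e⟩

end Fermat.Agent.S52lib.Spec


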