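/-
S52 library (helper9): the gluing theorem for lead's family in the `u`-chart:
`ThetaStatement` (helper4's `S52lib/Main.lean`) from polynomial sections.
-/
import Mathlib
import Fermat.Agent.S52lib.FamCurve
import Fermat.Agent.S52lib.Spec.Rational

set_option autoImplicit false
set_option linter.unusedSectionVars false

namespace Fermat.Agent.S52lib.Spec

open Polynomial WeierstrassCurve WeierstrassCurve.Affine WeierstrassCurve.Affine.Point

local notation "Qb" => AlgebraicClosure ℚ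
local notation "GQ" => (AlgebraicClosure ℚ ≃ₐ[ℚ] AlgebraicClosure ℚ)

/-- the `u`-chart of the family over `ℚ[X]` -/
noncomputable def famInfQ (h s : ℚ) : WeierstrassCurve ℚ[X] := Fam.curveInf (C h) (C s) X

lemma famInfQ_eval (h s u₁ : ℚ) : (famInfQ h s).map (evalRingHom u₁) = Fam.curveInf h s u₁ := by
  rw [famInfQ, Fam.map_curveInf]
  simp only [coe_evalRingHom, eval_C, eval_X]

lemma famInfQ_eval_zero (h s : ℚ) : (famInfQ h s).map (evalRingHom 0) = Fam.base h s := by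
  rw [famInfQ_eval, Fam.curveInf_zero]

lemma famQb_famInfQ (h s : ℚ) :
    famQb (famInfQ h s) = Fam.curveInf (C (algebraMap ℚ Qb h)) (C (algebraMap ℚ Qb s)) X := by
  rw [famQb, famInfQ, Fam.map_curveInf]
  simp only [coe_mapRingHom, Polynomial.map_C, Polynomial.map_X]

lemma base_Δ_ne_zero {h s : ℚ} (hD : s ^ 2 + h ^ 3 ≠ 0) : (Fam.base h s).Δ ≠ 0 := by
  rw [Fam.base_Δ]
  exact mul_ne_zero (by norm_num) hD

lemma curveInf_Δ_ne_zero {h s u₁ : ℚ} (hD : s ^ 2 + h ^ 3 ≠ 0) (hdl : Fam.dlH h s 1 u₁ ≠ 0) :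
    (Fam.curveInf h s u₁).Δ ≠ 0 := by
  rw [Fam.curveInf_Δ]
  exact mul_ne_zero (by norm_num) (mul_ne_zero hD (pow_ne_zero _ hdl))

variable [DecidableEq (RatFunc Qb)]

/-- **`ThetaStatement` from polynomial sections.** -/
theorem exists_theta_curveInf (h s u₁ : ℚ) (hD : s ^ 2 + h ^ 3 ≠ 0) (hdl : Fam.dlH h s 1 u₁ ≠ 0)
    {n : ℕ} (hn : n ≠ 0)
    (hsec : ∀ R : ((Fam.base h s).toAffine⁄Qb).Point, R ≠ 0 → n • R = 0 →
      ∃ (x y : Qb[X]) (hns : (genFibre (famQb (famInfQ h s))).toAffine.Nonsingular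
          (algebraMap Qb[X] (RatFunc Qb) x) (algebraMap Qb[X] (RatFunc Qb) y))
        (hk : ((Fam.base h s).toAffine⁄Qb).Nonsingular (x.eval (algebraMap ℚ Qb 0))
          (y.eval (algebraMap ℚ Qb 0))),
        n • (Point.some _ _ hns : (genFibre (famQb (famInfQ h s))).toAffine.Point) = 0 ∧
          R = Point.some _ _ hk) :
    ∃ θ : ((Fam.base h s).toAffine⁄Qb).Point → ((Fam.curveInf h s u₁).toAffine⁄Qb).Point,
      (∀ x y, n • x = 0 → n • y = 0 → θ (x + y) = θ x + θ y) ∧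
      (∀ x, n • x = 0 → n • θ x = 0) ∧ (∀ x, n • x = 0 → θ x = 0 → x = 0) ∧
      (∀ (σ : GQ) x, n • x = 0 → θ (σ • x) = σ • θ x) := by
  obtain ⟨θ, -, h1, h2, h3, h4⟩ := exists_theta_of_sections (famInfQ h s) 0 u₁
    (famInfQ_eval_zero h s) (famInfQ_eval h s u₁) (base_Δ_ne_zero hD)
    (curveInf_Δ_ne_zero hD hdl) hn hsec
  exact ⟨θ, h1, h2, h3, h4⟩

end Fermat.Agent.S52lib.Spec
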