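/-
S52 library (helper9): the Klein section and block K4.

For a nonzero point `R` killed by `5` on the base curve `Fam.base h s` over `ℚ̄`, helper3/helper5's
normal form gives `e = (u₀, v₀)` with `h = 9·kH e`, `s = 27·kT e`, `R = Q(e)`; along the polar line
`e + 3X·w(e)` (`polU`, `polV`) the `u`-chart of lead's family is Klein's universal curve (the bridge
identities, taken as hypotheses over `ℚ̄[X]`), so `Q(e + 3X·w(e))` is a point of the generic fibre with
polynomial coordinates, killed by `5`, with value `R` at `X = 0` (`exists_section_five`).  With the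
gluing theorem of `Spec/ThetaInf.lean` this is block K4: `theta_of_bridge`.
-/
import Mathlib
import Fermat.Agent.S52lib.FamCurve
import Fermat.Agent.S52lib.Klein.Univ
import Fermat.Agent.S52lib.Klein.Maps
import Fermat.Agent.S52lib.Klein.Inst
import Fermat.Agent.S52lib.Spec.ThetaInf

set_option autoImplicit false
set_option linter.unusedSectionVars false

namespace Fermat.Agent.S52lib.Spec

open Polynomial WeierstrassCurve WeierstrassCurve.Affine WeierstrassCurve.Affine.Point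
open Fermat.Agent.S52lib.Klein Fermat.Agent.S52lib.Fam

local notation "Qb" => AlgebraicClosure ℚ
local notation "GQ" => (AlgebraicClosure ℚ ≃ₐ[ℚ] AlgebraicClosure ℚ)

section poly

variable {k : Type*} [Field k]

/-- the first coordinate of the polar line `e + 3X·w(e)` -/
noncomputable def polU (u₀ v₀ : k) : k[X] := C u₀ + 3 * X * kfv (C u₀) (C v₀)

/-- the second coordinate of the polar line `e + 3X·w(e)` -/
noncomputable def polV (u₀ v₀ : k) : k[X] := C v₀ - 3 * X * kfu (C u₀) (C v₀)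

lemma polU_eval_zero (u₀ v₀ : k) : (polU u₀ v₀).eval 0 = u₀ := by
  simp [polU]

lemma polV_eval_zero (u₀ v₀ : k) : (polV u₀ v₀).eval 0 = v₀ := by
  simp [polV]

lemma C_nine_kH (u₀ v₀ : k) : (C (9 * kH u₀ v₀) : k[X]) = 9 * kH (C u₀) (C v₀) := by
  rw [map_mul, map_kH, map_ofNat]

lemma C_twentyseven_kT (u₀ v₀ : k) : (C (27 * kT u₀ v₀) : k[X]) = 27 * kT (C u₀) (C v₀) := by
  rw [map_mul, map_kT, map_ofNat]

end poly

section generic

variable {k : Type*} [Field k]

/-- `a₄` of the `u`-chart along the polar line (H-bridge at `(C u₀, C v₀, X)`). -/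
theorem curveInf_poly_a₄
    (hH : ∀ u v z : k[X], HpH (9 * kH u v) (27 * kT u v) 1 z =
      9 * kH (u + 3 * z * kfv u v) (v - 3 * z * kfu u v))
    {h s u₀ v₀ : k} (hh : h = 9 * kH u₀ v₀) (hs : s = 27 * kT u₀ v₀) :
    (Fam.curveInf (C h) (C s) (X : k[X])).a₄ = 27 * kH (polU u₀ v₀) (polV u₀ v₀) := by
  have e : (Fam.curveInf (C h) (C s) (X : k[X])).a₄ = 3 * HpH (C h) (C s) 1 X := by
    simp only [Fam.curveInf]
  rw [e, hh, hs, C_nine_kH, C_twentyseven_kT, hH (C u₀) (C v₀) X, polU, polV]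
  ring

/-- `a₆` of the `u`-chart along the polar line (T-bridge at `(C u₀, C v₀, X)`). -/
theorem curveInf_poly_a₆
    (hT : ∀ u v z : k[X], TpH (9 * kH u v) (27 * kT u v) 1 z =
      27 * kT (u + 3 * z * kfv u v) (v - 3 * z * kfu u v))
    {h s u₀ v₀ : k} (hh : h = 9 * kH u₀ v₀) (hs : s = 27 * kT u₀ v₀) :
    (Fam.curveInf (C h) (C s) (X : k[X])).a₆ = 54 * kT (polU u₀ v₀) (polV u₀ v₀) := by
  have e : (Fam.curveInf (C h) (C s) (X : k[X])).a₆ = 2 * TpH (C h) (C s) 1 X := by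
    simp only [Fam.curveInf]
  rw [e, hh, hs, C_nine_kH, C_twentyseven_kT, hT (C u₀) (C v₀) X, polU, polV]
  ring

end generic

section section5

variable [DecidableEq (RatFunc Qb)]

lemma some_congr {F : Type*} [Field F] {W : Affine F} {x x' y y' : F}
    (h : W.Nonsingular x y) (hx : x = x') (hy : y = y') :
    ∃ h' : W.Nonsingular x' y', (Point.some x y h : W.Point) = Point.some x' y' h' := by
  subst hx hy
  exact ⟨h, rfl⟩

/-- the generic fibre of the `u`-chart has nonzero discriminant. -/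
lemma genFibre_famInfQ_Δ_ne_zero {h s : ℚ} (hD : s ^ 2 + h ^ 3 ≠ 0) :
    (genFibre (famQb (famInfQ h s))).Δ ≠ 0 := by
  have h0 : (fibre (famQb (famInfQ h s)) (algebraMap ℚ Qb 0)).Δ ≠ 0 := by
    rw [fibre_famQb, famInfQ_eval_zero]
    exact baseChange_Δ_ne_zero (base_Δ_ne_zero hD)
  rw [fibre, WeierstrassCurve.map_Δ] at h0
  have h1 : (famQb (famInfQ h s)).Δ ≠ 0 := by
    intro h2
    rw [h2, _root_.map_zero] at h0
    exact h0 rfl
  rw [genFibre, WeierstrassCurve.map_Δ]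
  exact (map_ne_zero_iff _ (IsFractionRing.injective Qb[X] (RatFunc Qb))).mpr h1

/-- **The Klein section.** Every nonzero point of order dividing `5` of the base curve is the value
at `u = 0` of a point of the generic fibre of the `u`-chart, killed by `5`, with polynomial
coordinates. -/
theorem exists_section_five
    (hH : ∀ u v z : Qb[X], HpH (9 * kH u v) (27 * kT u v) 1 z =
      9 * kH (u + 3 * z * kfv u v) (v - 3 * z * kfu u v))
    (hT : ∀ u v z : Qb[X], TpH (9 * kH u v) (27 * kT u v) 1 z =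
      27 * kT (u + 3 * z * kfv u v) (v - 3 * z * kfu u v))
    (h s : ℚ) (hD : s ^ 2 + h ^ 3 ≠ 0)
    (R : ((Fam.base h s).toAffine⁄Qb).Point) (hR : R ≠ 0) (h5R : 5 • R = 0) :
    ∃ (x y : Qb[X]) (hns : (genFibre (famQb (famInfQ h s))).toAffine.Nonsingular
        (algebraMap Qb[X] (RatFunc Qb) x) (algebraMap Qb[X] (RatFunc Qb) y))
      (hk : ((Fam.base h s).toAffine⁄Qb).Nonsingular (x.eval (algebraMap ℚ Qb 0))
        (y.eval (algebraMap ℚ Qb 0))),
      5 • (Point.some _ _ hns : (genFibre (famQb (famInfQ h s))).toAffine.Point) = 0 ∧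
        R = Point.some _ _ hk := by
  -- the base curve over `ℚ̄`
  have hW : ((Fam.base h s).toAffine⁄Qb) = Fam.base (algebraMap ℚ Qb h) (algebraMap ℚ Qb s) :=
    Fam.map_base _ h s
  have h₁ : ((Fam.base h s).toAffine⁄Qb).a₁ = 0 := by rw [hW]; rfl
  have h₂ : ((Fam.base h s).toAffine⁄Qb).a₂ = 0 := by rw [hW]; rfl
  have h₃ : ((Fam.base h s).toAffine⁄Qb).a₃ = 0 := by rw [hW]; rfl
  have h₄ : ((Fam.base h s).toAffine⁄Qb).a₄ = 3 * algebraMap ℚ Qb h := by rw [hW]; rfl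
  have h₆ : ((Fam.base h s).toAffine⁄Qb).a₆ = 2 * algebraMap ℚ Qb s := by rw [hW]; rfl
  obtain ⟨u₀, v₀, hh', e₄, e₆, rfl⟩ := exists_klein_of_point_of_charZero h₁ h₂ h₃ R hR h5R
  rw [h₄] at e₄
  rw [h₆] at e₆
  have hh : algebraMap ℚ Qb h = 9 * kH u₀ v₀ := by linear_combination (1 / 3 : Qb) * e₄
  have hs : algebraMap ℚ Qb s = 27 * kT u₀ v₀ := by linear_combination (1 / 2 : Qb) * e₆
  -- the generic fibre
  have hfam : famQb (famInfQ h s) =
      Fam.curveInf (C (algebraMap ℚ Qb h)) (C (algebraMap ℚ Qb s)) X := famQb_famInfQ h s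
  have g₁ : (genFibre (famQb (famInfQ h s))).a₁ = 0 := by
    rw [genFibre, hfam, WeierstrassCurve.map_a₁]
    have : (Fam.curveInf (C (algebraMap ℚ Qb h)) (C (algebraMap ℚ Qb s)) (X : Qb[X])).a₁ = 0 := by
      simp only [Fam.curveInf]
    rw [this, _root_.map_zero]
  have g₂ : (genFibre (famQb (famInfQ h s))).a₂ = 0 := by
    rw [genFibre, hfam, WeierstrassCurve.map_a₂]
    have : (Fam.curveInf (C (algebraMap ℚ Qb h)) (C (algebraMap ℚ Qb s)) (X : Qb[X])).a₂ = 0 := by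
      simp only [Fam.curveInf]
    rw [this, _root_.map_zero]
  have g₃ : (genFibre (famQb (famInfQ h s))).a₃ = 0 := by
    rw [genFibre, hfam, WeierstrassCurve.map_a₃]
    have : (Fam.curveInf (C (algebraMap ℚ Qb h)) (C (algebraMap ℚ Qb s)) (X : Qb[X])).a₃ = 0 := by
      simp only [Fam.curveInf]
    rw [this, _root_.map_zero]
  have g₄ : (genFibre (famQb (famInfQ h s))).a₄ =
      27 * kH (algebraMap Qb[X] (RatFunc Qb) (polU u₀ v₀))
        (algebraMap Qb[X] (RatFunc Qb) (polV u₀ v₀)) := by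
    rw [genFibre, hfam, WeierstrassCurve.map_a₄, curveInf_poly_a₄ hH hh hs, map_mul, map_kH,
      map_ofNat]
  have g₆ : (genFibre (famQb (famInfQ h s))).a₆ =
      54 * kT (algebraMap Qb[X] (RatFunc Qb) (polU u₀ v₀))
        (algebraMap Qb[X] (RatFunc Qb) (polV u₀ v₀)) := by
    rw [genFibre, hfam, WeierstrassCurve.map_a₆, curveInf_poly_a₆ hT hh hs, map_mul, map_kT,
      map_ofNat]
  have hΔ := genFibre_famInfQ_Δ_ne_zero (h := h) (s := s) hD
  have hns0 := nonsingular_ptQ g₁ g₂ g₃ g₄ g₆ hΔ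
  have h5 := five_nsmul_ptQ (two_ne_zero) (three_ne_zero) g₁ g₂ g₃ g₄ g₆ hΔ hns0
  -- polynomial coordinates
  have ex : xQ (algebraMap Qb[X] (RatFunc Qb) (polU u₀ v₀))
      (algebraMap Qb[X] (RatFunc Qb) (polV u₀ v₀)) =
      algebraMap Qb[X] (RatFunc Qb) (xQ (polU u₀ v₀) (polV u₀ v₀)) := (map_xQ _ _ _).symm
  have ey : yQ (algebraMap Qb[X] (RatFunc Qb) (polU u₀ v₀))
      (algebraMap Qb[X] (RatFunc Qb) (polV u₀ v₀)) =
      algebraMap Qb[X] (RatFunc Qb) (yQ (polU u₀ v₀) (polV u₀ v₀)) := (map_yQ _ _ _).symm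
  obtain ⟨hns, ens⟩ := some_congr hns0 ex ey
  rw [ens] at h5
  -- the value at `0`
  have vx : xQ u₀ v₀ = (xQ (polU u₀ v₀) (polV u₀ v₀)).eval (algebraMap ℚ Qb 0) := by
    rw [_root_.map_zero, eval_xQ, polU_eval_zero, polV_eval_zero]
  have vy : yQ u₀ v₀ = (yQ (polU u₀ v₀) (polV u₀ v₀)).eval (algebraMap ℚ Qb 0) := by
    rw [_root_.map_zero, eval_yQ, polU_eval_zero, polV_eval_zero]
  obtain ⟨hk, ek⟩ := some_congr hh' vx vy
  exact ⟨_, _, hns, hk, h5, ek⟩

/-- **Block K4 (`ThetaStatement`) from the H- and T-bridge over `ℚ̄[X]`.** -/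
theorem theta_of_bridge
    (hH : ∀ u v z : Qb[X], HpH (9 * kH u v) (27 * kT u v) 1 z =
      9 * kH (u + 3 * z * kfv u v) (v - 3 * z * kfu u v))
    (hT : ∀ u v z : Qb[X], TpH (9 * kH u v) (27 * kT u v) 1 z =
      27 * kT (u + 3 * z * kfv u v) (v - 3 * z * kfu u v))
    (h s u₁ : ℚ) (hD : s ^ 2 + h ^ 3 ≠ 0) (hdl : Fam.dlH h s 1 u₁ ≠ 0) :
    ∃ θ : ((Fam.base h s).toAffine⁄Qb).Point → ((Fam.curveInf h s u₁).toAffine⁄Qb).Point,
      (∀ x y, 5 • x = 0 → 5 • y = 0 → θ (x + y) = θ x + θ y) ∧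
      (∀ x, 5 • x = 0 → 5 • θ x = 0) ∧ (∀ x, 5 • x = 0 → θ x = 0 → x = 0) ∧
      (∀ (σ : GQ) x, 5 • x = 0 → θ (σ • x) = σ • θ x) :=
  exists_theta_curveInf h s u₁ hD hdl (by norm_num)
    (fun R hR h5R => exists_section_five hH hT h s hD R hR h5R)

end section5

end Fermat.Agent.S52lib.Spec


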