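/-
S52 library (helper9): block K4 in the literal shape of helper4's `S52lib/Main.lean`:
`ThetaStatement` from the H- and T-bridge identities (chart `t = 1`) over `ℚ̄[X]`.
-/
import Mathlib
import Fermat.Agent.S52lib.Main
import Fermat.Agent.S52lib.Spec.KleinSection

set_option autoImplicit false

namespace Fermat.Agent.S52lib.Spec

open Polynomial Fermat.Agent.S52lib.Klein Fermat.Agent.S52lib.Fam

/-- **Block K4.** -/
theorem thetaStatement_of_bridge
    (hH : ∀ u v z : (AlgebraicClosure ℚ)[X], HpH (9 * kH u v) (27 * kT u v) 1 z =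
      9 * kH (u + 3 * z * kfv u v) (v - 3 * z * kfu u v))
    (hT : ∀ u v z : (AlgebraicClosure ℚ)[X], TpH (9 * kH u v) (27 * kT u v) 1 z =
      27 * kT (u + 3 * z * kfv u v) (v - 3 * z * kfu u v)) :
    Fermat.Agent.S52lib.ThetaStatement := by
  classical
  intro h s u₁ hD hdl
  obtain ⟨θ, h1, h2, h3, h4⟩ := theta_of_bridge hH hT h s u₁ hD hdl
  exact ⟨θ, h1, h2, h3, h4⟩

end Fermat.Agent.S52lib.Spec
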